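import Fermat.Agent.Pseudo.LamPsiHypProof
import Fermat.Agent.Jac.KummerMapsFinal

/-!
# S32-COND, leaf L2 (SAT-Z): Hecke polynomials killing `J₀(N)[p^m]` are small in `T`

`S` a finite set of primes containing the primes dividing `N`, `Idx S` the primes outside `S`.
For `h ∈ ℤ[x_i : i ∈ Idx S]` write `h(T)` for its value at the Hecke operators.

* `exists_lift_poly` : every `h` has a lift `P` in the lattice Hecke algebra `A ≤ End_ℤ(Λ)` of
  (T1)(a) with `Ψ P = h(T_ℓ)` in the Hecke algebra, and `ρ (P λ) = h(T) • ρ λ` for every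
  Hecke-equivariant `ρ : Λ →+ J₀(N)` (no commutativity of `A` needed);
* `modEq_zero_of_kills_torsion` : if `h(T)` kills `J₀(N)[M]` then `P ≡ 0 mod M` on `Λ`
  (Kummer maps `(K)`);
* `exists_sat_int` : **L2** — there is `c` such that for all `m` and all `h` killing
  `J₀(N)[p^m]`, `h(π T_ℓ) ∈ J ^ (m - c)`, for every ring homomorphism `π` from the Hecke algebra
  to a `J`-adically complete ring `R` with `p ∈ J`;
* `exists_sat_datum` : the same at a `HeckeGaloisRepDatum` (`π := H.π`, `J := 𝔪_T`).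
-/

set_option autoImplicit false
set_option linter.style.haveILetI false
set_option linter.unusedSectionVars false

open ModularCurve CuspForm

namespace Fermat.Agent.FF2.S32Sat

open Fermat.Agent.Jac Fermat.Agent.Pseudo Fermat.Agent.Pseudo.GQSys Fermat.Agent.Pseudo.JZ

variable {N : ℕ} [NeZero N] {S : Finset ℕ}

/-- A prime outside `S` does not divide `N`. -/
theorem not_dvd_of_idx (hNS : ∀ q : ℕ, q.Prime → q ∣ N → q ∈ S) (i : Idx S) :
    ¬ ((i.1 : ℕ) ∣ N) := fun h => i.2 (hNS _ i.1.2 h)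

/-- The Hecke operators `T_ℓ`, `ℓ ∉ S`, as a family in `heckeAlgebra N 2 S`. -/
noncomputable def heckeT (hNS : ∀ q : ℕ, q.Prime → q ∣ N → q ∈ S) (i : Idx S) :
    heckeAlgebra N 2 (↑S : Set ℕ) :=
  heckeAlgebra.T i.1.2 (not_dvd_of_idx hNS i) i.2

/-- **Lifting polynomials to a (possibly noncommutative) algebra of endomorphisms**, abstract
form.  `A ≤ End_ℤ(Lam)` contains the operators `TL i`; `Ψ : A →+* TT` sends `TL i` to `tt i` in
a commutative ring; `ξ : TT →+* R`.  Every `h ∈ ℤ[x_i]` has a lift `P ∈ A` with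
`ξ (Ψ P) = h(ξ (tt i))`, and `ρ (P λ) = h(g i) • ρ λ` for every additive map `ρ : Lam →+ X`
intertwining `TL i` with the action of `g i ∈ HA` on the `HA`-module `X`. -/
theorem exists_lift_poly_abstract {Lam X I HA TT R : Type*} [AddCommGroup Lam] [AddCommGroup X]
    [CommRing HA] [Module HA X] [CommRing TT] [CommRing R]
    (TL : I → Module.End ℤ Lam) (A : Subalgebra ℤ (Module.End ℤ Lam)) (hA : ∀ i, TL i ∈ A)
    (Ψ : A →+* TT) (tt : I → TT) (hΨ : ∀ i, Ψ ⟨TL i, hA i⟩ = tt i) (ξ : TT →+* R)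
    (g : I → HA) (h : MvPolynomial I ℤ) :
    ∃ P : A, ξ (Ψ P) = MvPolynomial.aeval (fun i => ξ (tt i)) h ∧
      ∀ rho : Lam →+ X, (∀ (i : I) (lam : Lam), rho (TL i lam) = g i • rho lam) →
        ∀ lam : Lam, rho ((P : Module.End ℤ Lam) lam) =
          (MvPolynomial.aeval g h : HA) • rho lam := by
  induction h using MvPolynomial.induction_on with
  | C r =>
    refine ⟨(r : A), ?_, fun rho _ lam => ?_⟩
    · rw [MvPolynomial.aeval_C, map_intCast, map_intCast, eq_intCast]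
    · have h1 : (((r : A) : A) : Module.End ℤ Lam) lam = r • lam := by
        rw [show (((r : A) : A) : Module.End ℤ Lam) = (r : Module.End ℤ Lam) from rfl,
          Module.End.intCast_apply]
      rw [h1, map_zsmul, MvPolynomial.aeval_C, eq_intCast, Int.cast_smul_eq_zsmul]
  | add f g' hf hg =>
    obtain ⟨P, hP1, hP2⟩ := hf
    obtain ⟨Q, hQ1, hQ2⟩ := hg
    refine ⟨P + Q, ?_, fun rho hrho lam => ?_⟩
    · rw [map_add, map_add, map_add, hP1, hQ1]
    · rw [Subalgebra.coe_add, LinearMap.add_apply, map_add, hP2 rho hrho, hQ2 rho hrho, map_add,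
        add_smul]
  | mul_X f i hf =>
    obtain ⟨P, hP1, hP2⟩ := hf
    refine ⟨P * ⟨TL i, hA i⟩, ?_, fun rho hrho lam => ?_⟩
    · rw [map_mul, map_mul, map_mul, hP1, MvPolynomial.aeval_X, hΨ i]
    · rw [Subalgebra.coe_mul, Module.End.mul_apply, hP2 rho hrho, map_mul, MvPolynomial.aeval_X]
      show _ • rho (TL i lam) = _
      rw [hrho, mul_smul]

/-- **Lifting Hecke polynomials to the lattice Hecke algebra.**  `π` is any ring homomorphism
from the Hecke algebra to a commutative ring. -/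
theorem exists_lift_poly (hNS : ∀ q : ℕ, q.Prime → q ∣ N → q ∈ S)
    (A : Subalgebra ℤ (Module.End ℤ (Lam N))) (hA : ∀ i : Idx S, TLam N i.1 ∈ A)
    (Ψ : A →+* heckeAlgebra N 2 (↑S : Set ℕ))
    (hΨ : ∀ (ℓ : ℕ) (hℓ : ℓ.Prime) (hℓN : ¬ ℓ ∣ N) (hℓS : ℓ ∉ (↑S : Set ℕ)),
      Ψ ⟨TLam N ⟨ℓ, hℓ⟩, hA ⟨⟨ℓ, hℓ⟩, hℓS⟩⟩ = heckeAlgebra.T hℓ hℓN hℓS)
    {R : Type*} [CommRing R] (π : heckeAlgebra N 2 (↑S : Set ℕ) →+* R)
    (h : MvPolynomial (Idx S) ℤ) :
    ∃ P : A, π (Ψ P) = MvPolynomial.aeval (fun i : Idx S => π (heckeT hNS i)) h ∧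
      letI := heckeModuleBar N
      ∀ rho : Lam N →+ JZero N,
        (∀ (ℓ : Nat.Primes) (lam : Lam N), rho (TLam N ℓ lam) = heckeGen ℓ • rho lam) →
        ∀ lam : Lam N, rho ((P : Module.End ℤ (Lam N)) lam) =
          (MvPolynomial.rename (Subtype.val : Idx S → Nat.Primes) h : HeckeAlg) • rho lam := by
  letI := heckeModuleBar N
  obtain ⟨P, hP1, hP2⟩ := exists_lift_poly_abstract (X := JZero N) (HA := HeckeAlg)
    (fun i : Idx S => TLam N i.1) A hA Ψ (heckeT hNS)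
    (fun i => hΨ (i.1 : ℕ) i.1.2 (not_dvd_of_idx hNS i) i.2) π
    (fun i : Idx S => heckeGen i.1) h
  have hren : (MvPolynomial.aeval (fun i : Idx S => heckeGen i.1) h : HeckeAlg) =
      MvPolynomial.rename (Subtype.val : Idx S → Nat.Primes) h := by
    rw [MvPolynomial.rename_eq_aeval]
    rfl
  refine ⟨P, hP1, fun rho hrho lam => ?_⟩
  rw [← hren]
  exact hP2 rho (fun i lam => hrho i.1 lam) lam

/-- **(K) transfers annihilation of the torsion to congruences on the lattice.** -/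
theorem modEq_zero_of_kills_torsion {M : ℕ} (hM : 0 < M) (P : Module.End ℤ (Lam N))
    (t : HeckeAlg)
    (hP : letI := heckeModuleBar N
      ∀ rho : Lam N →+ JZero N,
        (∀ (ℓ : Nat.Primes) (lam : Lam N), rho (TLam N ℓ lam) = heckeGen ℓ • rho lam) →
        ∀ lam : Lam N, rho (P lam) = t • rho lam)
    (hkill : letI := heckeModuleBar N
      ∀ x : JZero N, (M : ℤ) • x = 0 → t • x = 0) :
    ModEq M P 0 := by
  letI := heckeModuleBar N
  obtain ⟨rho, hker, hrho⟩ := kummerMaps_heckeGen (KMF.kummerMaps N) M hM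
  intro lam
  have h1 : (M : ℤ) • rho lam = 0 := by
    rw [← map_zsmul, hker]
    exact ⟨lam, by rw [natCast_zsmul]⟩
  have h2 : rho (P lam) = 0 := by rw [hP rho hrho lam, hkill _ h1]
  obtain ⟨mu, hmu⟩ := (hker _).1 h2
  exact ⟨mu, by rw [LinearMap.zero_apply, sub_zero, hmu]⟩

/-- **L2 (SAT-Z)**, general coefficient ring: `R` is `J`-adically complete, `p ∈ J`,
`π : heckeAlgebra N 2 S →+* R` any ring homomorphism. -/
theorem exists_sat_int {p : ℕ} (hp : p.Prime) (hNS : ∀ q : ℕ, q.Prime → q ∣ N → q ∈ S)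
    {R : Type*} [CommRing R] (J : Ideal R) [IsAdicComplete J R] (hpJ : (p : R) ∈ J)
    (π : heckeAlgebra N 2 (↑S : Set ℕ) →+* R) :
    ∃ c : ℕ, ∀ (m : ℕ) (h : MvPolynomial (Idx S) ℤ),
      (letI := heckeModuleBar N
       ∀ x : JZero N, (p : ℤ) ^ m • x = 0 →
        (MvPolynomial.rename (Subtype.val : Idx S → Nat.Primes) h : HeckeAlg) • x = 0) →
      MvPolynomial.aeval (fun i : Idx S => π (heckeT hNS i)) h ∈ J ^ (m - c) := by
  letI := heckeModuleBar N
  haveI := finite_Lam N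
  haveI := JZ.free_Lam (N := N)
  obtain ⟨A, hA, Ψ, hΨ⟩ := lamPsiHyp N S
  have htf : ∀ (n : ℕ) (x : heckeAlgebra N 2 (↑S : Set ℕ)), n ≠ 0 → n • x = 0 → x = 0 :=
    fun n x hn hx => nsmul_right_injective hn (by simpa using hx)
  obtain ⟨c, hc⟩ := exists_sat J A Ψ π htf hp hpJ
  refine ⟨c, fun m h hkill => ?_⟩
  obtain ⟨P, hP1, hP2⟩ := exists_lift_poly hNS A hA Ψ hΨ π h
  have hmod : ModEq (p ^ m) (P : Module.End ℤ (Lam N)) 0 := by
    refine modEq_zero_of_kills_torsion (pow_pos hp.pos m) _ _ hP2 fun x hx => hkill x ?_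
    rwa [Nat.cast_pow] at hx
  have h1 := hc m P hmod
  rwa [hP1] at h1

section Datum

variable {p : ℕ}
  {𝒪 : Type} [CommRing 𝒪] [IsDomain 𝒪] [IsDiscreteValuationRing 𝒪]
  [IsAdicComplete (IsLocalRing.maximalIdeal 𝒪) 𝒪]
  {θ : CuspForm.heckeAlgebra N 2 (↑S : Set ℕ) →+* IsLocalRing.ResidueField 𝒪}
  {T : Type} [CommRing T] [IsLocalRing T] [IsNoetherianRing T]
  [IsAdicComplete (IsLocalRing.maximalIdeal T) T] [Algebra 𝒪 T] [IsLocalHom (algebraMap 𝒪 T)]
  [Module.Finite 𝒪 T] [Module.Free 𝒪 T]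

/-- `p ∈ 𝔪_T` from `p ∈ 𝔪_𝒪`. -/
theorem natCast_mem_maximalIdeal (hp𝒪 : (p : 𝒪) ∈ IsLocalRing.maximalIdeal 𝒪) :
    (p : T) ∈ IsLocalRing.maximalIdeal T := by
  have h : algebraMap 𝒪 T (p : 𝒪) ∈ IsLocalRing.maximalIdeal T := by
    rw [IsLocalRing.mem_maximalIdeal, mem_nonunits_iff] at hp𝒪 ⊢
    exact fun hu => hp𝒪 (isUnit_of_map_unit (algebraMap 𝒪 T) _ hu)
  simpa using h

/-- **L2 (SAT-Z)** at a Hecke–Galois datum: there is `c` such that every integral Hecke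
polynomial killing `J₀(N)[p^m]` takes a value in `𝔪_T ^ (m - c)` at the `H.π (T_ℓ)`. -/
theorem exists_sat_datum (hp : p.Prime) (hp𝒪 : (p : 𝒪) ∈ IsLocalRing.maximalIdeal 𝒪)
    (hNS : ∀ q : ℕ, q.Prime → q ∣ N → q ∈ S)
    (H : CuspForm.HeckeGaloisRepDatum N (↑S : Set ℕ) 𝒪 θ T) :
    ∃ c : ℕ, ∀ (m : ℕ) (h : MvPolynomial (Idx S) ℤ),
      (letI := heckeModuleBar N
       ∀ x : JZero N, (p : ℤ) ^ m • x = 0 →
        (MvPolynomial.rename (Subtype.val : Idx S → Nat.Primes) h : HeckeAlg) • x = 0) →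
      MvPolynomial.aeval
        (fun i : Idx S => H.π (heckeAlgebra.T i.1.2 (not_dvd_of_idx hNS i) i.2)) h ∈
          IsLocalRing.maximalIdeal T ^ (m - c) :=
  exists_sat_int hp hNS (IsLocalRing.maximalIdeal T) (natCast_mem_maximalIdeal hp𝒪) H.π

end Datum

end Fermat.Agent.FF2.S32Sat
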